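import Fermat.Agent.WirsingApprox.Polys

/-!
# Wirsing's theorem

Of two coprime polynomials with small values the one with the nearest root has it real and within
`≪ M ^ (-(n + 3) / 2)`.
-/

set_option autoImplicit false

noncomputable section

open Polynomial

namespace FA.WirsingApprox

theorem conj_mem_croots {f : ℤ[X]} {z : ℂ} (hz : z ∈ croots f) :
    (starRingEnd ℂ) z ∈ croots f := by
  obtain ⟨h0, hz⟩ := mem_roots'.1 hz
  refine (mem_roots h0).2 ?_
  rw [IsRoot, eval_map] at hz ⊢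
  rw [show (Int.castRingHom ℂ) = (starRingEnd ℂ).comp (Int.castRingHom ℂ) from RingHom.ext_int _ _,
    ← hom_eval₂, hz, map_zero]

theorem dist1_conj (ξ : ℝ) (z : ℂ) : dist1 ξ ((starRingEnd ℂ) z) = dist1 ξ z := by
  rw [dist1, dist1, ← Complex.norm_conj ((ξ : ℂ) - z), map_sub, Complex.conj_ofReal]

/-- **The nearest root.** -/
theorem near_root (ξ : ℝ) {n : ℕ} (hn : 1 ≤ n) {E : ℝ} (hE : 0 < E) :
    ∃ C H0 : ℝ, 1 ≤ H0 ∧ ∀ (F G : ℤ[X]) (H : ℝ), H0 ≤ H → F ≠ 0 → G ≠ 0 → 1 ≤ F.natDegree →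
      F.natDegree ≤ n → 1 ≤ G.natDegree → G.natDegree ≤ n → aeval ξ F ≠ 0 → aeval ξ G ≠ 0 →
      mahler F ≤ H → mahler G ≤ H → |aeval ξ F| * H ^ n ≤ E → |aeval ξ G| * H ^ n ≤ E →
      (∀ z ∈ croots F, z ∉ croots G) →
      (∃ a ∈ dists ξ F, ∀ b ∈ dists ξ G, a ≤ b) →
      ∃ α : ℝ, aeval α F = 0 ∧ |ξ - α| ^ 2 * mahler F ^ (n + 3) ≤ C ∧ |ξ - α| * H ≤ C ∧
        ∀ a ∈ dists ξ F, |ξ - α| ≤ a := by
  classical
  set K := (2 * (2 + |ξ|)) ^ (n * n) with hKdef
  have hK1 : 1 ≤ K := one_le_pow₀ (by linarith [abs_nonneg ξ])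
  set u := (2 + |ξ|) ^ n * E with hudef
  have hu : 0 < u := by positivity
  set C := (K * u ^ 2 + u + 1) ^ 2 + 2 * K * u ^ 3 + 1 with hCdef
  have hbig : 1 ≤ K * u ^ 2 + u + 1 := by nlinarith [sq_nonneg u]
  have hC1 : K * u ^ 2 + u + 1 ≤ C := by
    have h0 : 0 ≤ 2 * K * u ^ 3 := by positivity
    nlinarith
  refine ⟨C, C + 1, by linarith, fun F G H hH hF hG dF dFn dG dGn vF vG mF mG sF sG hno hmin => ?_⟩
  have hH1 : 1 ≤ H := by linarith
  have hH0 : 0 < H := by linarith
  have hA := inUnit_dists ξ vF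
  have hB := inUnit_dists ξ vG
  set MF := mahler F
  set MG := mahler G
  have hMF : 1 ≤ MF := one_le_mahler hF
  have hMG : 1 ≤ MG := one_le_mahler hG
  have hsize : ∀ {f : ℤ[X]}, f.natDegree ≤ n → |aeval ξ f| * H ^ n ≤ E →
      mahler f * (dists ξ f).prod * H ^ n ≤ u := fun {f} hd hs => by
    calc mahler f * (dists ξ f).prod * H ^ n
        ≤ (2 + |ξ|) ^ f.natDegree * |aeval ξ f| * H ^ n :=
          mul_le_mul_of_nonneg_right (mahler_mul_prod_le ξ f) (by positivity)
      _ ≤ (2 + |ξ|) ^ n * (|aeval ξ f| * H ^ n) := by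
          rw [mul_assoc]
          exact mul_le_mul_of_nonneg_right
            (pow_le_pow_right₀ (by linarith [abs_nonneg ξ]) hd) (by positivity)
      _ ≤ u := mul_le_mul_of_nonneg_left hs (by positivity)
  have hx := hsize dFn sF
  have hy := hsize dGn sG
  have hres : 1 ≤ K * (MF ^ G.natDegree * MG ^ F.natDegree * crossMax (dists ξ F) (dists ξ G)) := by
    refine (one_le_crossMax ξ hF hG hno).trans ?_
    rw [mul_assoc, mul_assoc, mul_assoc]
    refine mul_le_mul_of_nonneg_right (pow_le_pow_right₀ (by linarith [abs_nonneg ξ])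
      (Nat.mul_le_mul dFn dGn)) ?_
    exact mul_nonneg (by positivity) (mul_nonneg (by positivity) (crossMax_mem hA hB).1)
  obtain ⟨z1, hz1, hz1min⟩ := (croots F).toFinset.exists_min_image (dist1 ξ)
    (Multiset.toFinset_nonempty.2 fun h => by simp [← card_croots, h] at dF)
  rw [Multiset.mem_toFinset] at hz1
  set a1 := dist1 ξ z1 with ha1
  set R := ((croots F).erase z1).map (dist1 ξ) with hR
  have hcons : dists ξ F = a1 ::ₘ R := by
    rw [dists, ← Multiset.cons_erase hz1, Multiset.map_cons]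
  have ha1B : ∀ b ∈ dists ξ G, a1 ≤ b := fun b hb => by
    obtain ⟨a, ha, hab⟩ := hmin
    obtain ⟨z, hz, rfl⟩ := Multiset.mem_map.1 ha
    exact (hz1min z (Multiset.mem_toFinset.2 hz)).trans (hab b hb)
  obtain ⟨b1, B', hBcons, hb1⟩ := exists_min_cons (A := dists ξ G) fun h => by
    have hc := card_croots G
    rw [dists, Multiset.map_eq_zero] at h
    rw [h] at hc
    simp at hc
    omega
  have ha1pos : 0 < a1 := (hA a1 (by simp [hcons])).1
  have hab : a1 ≤ b1 := ha1B b1 (by simp [hBcons])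
  set p := (dists ξ F).prod with hp
  set q := (dists ξ G).prod with hq
  have hp0 : 0 < p := hA.prod_mem.1
  have hq0 : 0 < q := hB.prod_mem.1
  have hpow : ∀ {i : ℕ} {x : ℝ}, 1 ≤ x → x ≤ H → x ^ i ≤ H ^ i := fun {i x} h1 h2 =>
    pow_le_pow_left₀ (by linarith) h2 i
  -- the other roots are farther away
  have hfar : ∀ x ∈ R, b1 < x := by
    intro x hx'
    by_contra! hle
    have hcR : 1 ≤ R.card := Multiset.card_pos_iff_exists_mem.2 ⟨x, hx'⟩
    have hd2 : 2 ≤ F.natDegree := by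
      have h := congrArg Multiset.card hcons
      rw [dists, Multiset.card_map, card_croots, Multiset.card_cons] at h
      omega
    have hb1le : ∀ b ∈ dists ξ G, x ≤ b := fun b hb => by
      rw [hBcons] at hb
      rcases Multiset.mem_cons.1 hb with rfl | h
      · exact hle
      · exact hle.trans (hb1 b h)
    have hsq := crossMax_le_sq (a1 := a1) (a2 := x) (A := R.erase x)
      (fun y hy' => hA y (by simp [hcons, Multiset.mem_of_mem_erase hy'])) hB ha1B hb1le
    rw [Multiset.cons_erase hx', ← hcons, ← hq] at hsq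
    have h1 : 1 ≤ K * (MF ^ G.natDegree * MG ^ (F.natDegree - 2) * (MG * q) ^ 2) := by
      refine hres.trans (mul_le_mul_of_nonneg_left ?_ (by linarith))
      rw [mul_pow, mul_assoc _ (MG ^ _) (MG ^ 2 * _), ← mul_assoc (MG ^ _) (MG ^ 2), ← pow_add,
        Nat.sub_add_cancel hd2, mul_assoc]
      exact mul_le_mul_of_nonneg_left (mul_le_mul_of_nonneg_left hsq (by positivity))
        (by positivity)
    have h2 : MF ^ G.natDegree * MG ^ (F.natDegree - 2) * H ^ 2 ≤ (H ^ n) ^ 2 := by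
      calc MF ^ G.natDegree * MG ^ (F.natDegree - 2) * H ^ 2
          ≤ H ^ G.natDegree * H ^ (F.natDegree - 2) * H ^ 2 := by
            gcongr
        _ = H ^ (G.natDegree + (F.natDegree - 2) + 2) := by rw [pow_add, pow_add]
        _ ≤ H ^ (n * 2) := pow_le_pow_right₀ hH1 (by omega)
        _ = (H ^ n) ^ 2 := pow_mul _ _ _
    have h3 : H ^ 2 ≤ K * u ^ 2 := by
      calc H ^ 2 ≤ K * (MF ^ G.natDegree * MG ^ (F.natDegree - 2) * (MG * q) ^ 2) * H ^ 2 :=
            le_mul_of_one_le_left (sq_nonneg H) h1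
        _ = K * (MF ^ G.natDegree * MG ^ (F.natDegree - 2) * H ^ 2) * (MG * q) ^ 2 := by ring
        _ ≤ K * (H ^ n) ^ 2 * (MG * q) ^ 2 := by gcongr
        _ = K * (MG * q * H ^ n) ^ 2 := by ring
        _ ≤ K * u ^ 2 := by gcongr
    nlinarith
  have hreal : (starRingEnd ℂ) z1 = z1 := by
    by_contra hne
    have hmem : dist1 ξ ((starRingEnd ℂ) z1) ∈ R :=
      Multiset.mem_map_of_mem _ ((Multiset.mem_erase_of_ne hne).2 (conj_mem_croots hz1))
    rw [dist1_conj, ← ha1] at hmem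
    exact absurd hab (hfar a1 hmem).not_ge
  -- the bound for the nearest root
  have hbound : a1 ^ 2 * MF ^ (n + 3) ≤ C ∧ a1 * H ≤ C := by
    have hMFpow : ∀ {i : ℕ}, MF ^ i ≤ H ^ i := hpow hMF mF
    rcases R.empty_or_exists_mem with hR0 | ⟨x0, hx0⟩
    · -- one root
      have hpa : p = a1 := by rw [hp, hcons, hR0]; simp
      rw [hpa] at hx
      have hHn : H ≤ H ^ n := le_self_pow₀ hH1 (by omega)
      constructor
      · have h2 : MF ^ (n + 3) ≤ (MF * H ^ n) ^ 2 := by
          calc MF ^ (n + 3) = MF ^ 2 * MF ^ (n + 1) := by ring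
            _ ≤ MF ^ 2 * H ^ (n * 2) := mul_le_mul_of_nonneg_left
                (hMFpow.trans (pow_le_pow_right₀ hH1 (by omega))) (sq_nonneg _)
            _ = _ := by ring
        calc a1 ^ 2 * MF ^ (n + 3) ≤ a1 ^ 2 * (MF * H ^ n) ^ 2 :=
              mul_le_mul_of_nonneg_left h2 (sq_nonneg _)
          _ = (MF * a1 * H ^ n) ^ 2 := by ring
          _ ≤ u ^ 2 := by gcongr
          _ ≤ (K * u ^ 2 + u + 1) ^ 2 := pow_le_pow_left₀ hu.le (by nlinarith [sq_nonneg u]) 2
          _ ≤ C := by rw [hCdef]; nlinarith [pow_pos hu 3]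
      · calc a1 * H ≤ MF * a1 * H ^ n := by
              calc a1 * H = 1 * a1 * H := by ring
                _ ≤ MF * a1 * H ^ n := by gcongr
          _ ≤ u := hx
          _ ≤ C := by nlinarith [sq_nonneg u]
    · have hd2 : 2 ≤ F.natDegree := by
        have h := congrArg Multiset.card hcons
        have hcR : 1 ≤ R.card := Multiset.card_pos_iff_exists_mem.2 ⟨x0, hx0⟩
        rw [dists, Multiset.card_map, card_croots, Multiset.card_cons] at h
        omega
      rcases B'.empty_or_exists_mem with hB0 | ⟨y0, hy0⟩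
      · -- the second has one root
        have hd1 : G.natDegree = 1 := by
          have h := congrArg Multiset.card hBcons
          rw [dists, Multiset.card_map, card_croots, hB0] at h
          simpa using h
        have hBs : dists ξ G = {b1} := by rw [hBcons, hB0]; rfl
        have hcr := crossMax_single (A := R) hab fun x hx' => (hfar x hx').le
        rw [← hcons, ← hBs, ← hp, show b1 = q by rw [hq, hBs, Multiset.prod_singleton]] at hcr
        have h1 : a1 * H ^ (n + 1) ≤ K * u ^ 2 := by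
          have h2 : a1 ≤ K * (MF * MG ^ F.natDegree * (q * p)) := by
            calc a1 = 1 * a1 := (one_mul _).symm
              _ ≤ K * (MF ^ G.natDegree * MG ^ F.natDegree *
                    crossMax (dists ξ F) (dists ξ G)) * a1 :=
                  mul_le_mul_of_nonneg_right hres ha1pos.le
              _ = _ := by rw [hd1, ← hcr]; ring
          calc a1 * H ^ (n + 1) ≤ K * (MF * MG ^ F.natDegree * (q * p)) * H ^ (n + 1) :=
                mul_le_mul_of_nonneg_right h2 (by positivity)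
            _ = K * ((MF * p) * (MG * q)) * (MG ^ (F.natDegree - 1) * H ^ (n + 1)) := by
                obtain ⟨k, hk⟩ := Nat.exists_eq_add_of_le (show 1 ≤ F.natDegree by omega)
                rw [hk, Nat.add_sub_cancel_left, pow_add]
                ring
            _ ≤ K * ((MF * p) * (MG * q)) * (H ^ n * H ^ n) := by
                refine mul_le_mul_of_nonneg_left ?_ (by positivity)
                calc MG ^ (F.natDegree - 1) * H ^ (n + 1) ≤ H ^ (F.natDegree - 1) * H ^ (n + 1) :=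
                      mul_le_mul_of_nonneg_right (hpow hMG mG) (by positivity)
                  _ ≤ H ^ n * H ^ n := by
                      rw [← pow_add, ← pow_add]
                      exact pow_le_pow_right₀ hH1 (by omega)
            _ = K * ((MF * p * H ^ n) * (MG * q * H ^ n)) := by ring
            _ ≤ K * u ^ 2 := by rw [sq]; gcongr
        constructor
        · calc a1 ^ 2 * MF ^ (n + 3) ≤ a1 ^ 2 * H ^ (n * 2 + 2) := mul_le_mul_of_nonneg_left
                (hMFpow.trans (pow_le_pow_right₀ hH1 (by omega))) (sq_nonneg _)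
            _ = (a1 * H ^ (n + 1)) ^ 2 := by ring
            _ ≤ (K * u ^ 2) ^ 2 := by gcongr
            _ ≤ (K * u ^ 2 + u + 1) ^ 2 := pow_le_pow_left₀ (by positivity) (by linarith) 2
            _ ≤ C := by rw [hCdef]; nlinarith [pow_pos hu 3]
        · calc a1 * H ≤ a1 * H ^ (n + 1) :=
                mul_le_mul_of_nonneg_left (le_self_pow₀ hH1 (by omega)) ha1pos.le
            _ ≤ K * u ^ 2 := h1
            _ ≤ C := by linarith
      · -- the general case
        obtain ⟨a2, A'', hAc, ha2⟩ := exists_min_cons (A := R) fun h => by simp [h] at hx0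
        obtain ⟨b2, B'', hBc, hb2⟩ := exists_min_cons (A := B') fun h => by simp [h] at hy0
        have hd2' : 2 ≤ G.natDegree := by
          have h := congrArg Multiset.card hBcons
          rw [dists, Multiset.card_map, card_croots, hBc, Multiset.card_cons,
            Multiset.card_cons] at h
          omega
        have hgen := crossMax_general (A := A'') (B := B'') (a1 := a1) (a2 := a2) (b1 := b1)
          (b2 := b2) (by rw [← hAc, ← hcons]; exact hA) (by rw [← hBc, ← hBcons]; exact hB) hab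
          (by rwa [← hBc]) hb2 (hfar a2 (by simp [hAc])).le ha2
        rw [← hAc, ← hcons, ← hBc, ← hBcons, ← hp, ← hq] at hgen
        have h2 : a1 ^ 2 ≤ K * (MF ^ G.natDegree * MG ^ F.natDegree * (p * q * (p + q))) := by
          calc a1 ^ 2 = 1 * a1 ^ 2 := (one_mul _).symm
            _ ≤ K * (MF ^ G.natDegree * MG ^ F.natDegree *
                  crossMax (dists ξ F) (dists ξ G)) * a1 ^ 2 :=
                mul_le_mul_of_nonneg_right hres (sq_nonneg _)
            _ = K * (MF ^ G.natDegree * MG ^ F.natDegree *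
                  (crossMax (dists ξ F) (dists ξ G) * a1 ^ 2)) := by ring
            _ ≤ _ := by gcongr
        obtain ⟨m, hm⟩ := Nat.exists_eq_add_of_le hd2'
        obtain ⟨k, hk⟩ := Nat.exists_eq_add_of_le hd2
        have h3 : a1 ^ 2 * H ^ (n + 3) ≤ 2 * K * u ^ 3 := by
          have e1 : MF ^ m * MG ^ (k + 1) * H ^ (n + 3) ≤ H ^ (n * 3) :=
            calc MF ^ m * MG ^ (k + 1) * H ^ (n + 3) ≤ H ^ m * H ^ (k + 1) * H ^ (n + 3) := by
                  gcongr
              _ ≤ H ^ (n * 3) := by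
                  rw [← pow_add, ← pow_add]
                  exact pow_le_pow_right₀ hH1 (by omega)
          have e2 : MF ^ (m + 1) * MG ^ k * H ^ (n + 3) ≤ H ^ (n * 3) :=
            calc MF ^ (m + 1) * MG ^ k * H ^ (n + 3) ≤ H ^ (m + 1) * H ^ k * H ^ (n + 3) := by
                  gcongr
              _ ≤ H ^ (n * 3) := by
                  rw [← pow_add, ← pow_add]
                  exact pow_le_pow_right₀ hH1 (by omega)
          calc a1 ^ 2 * H ^ (n + 3)
              ≤ K * (MF ^ G.natDegree * MG ^ F.natDegree * (p * q * (p + q))) * H ^ (n + 3) :=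
                mul_le_mul_of_nonneg_right h2 (by positivity)
            _ = K * ((MF ^ m * MG ^ (k + 1) * H ^ (n + 3)) * ((MF * p) ^ 2 * (MG * q)) +
                  (MF ^ (m + 1) * MG ^ k * H ^ (n + 3)) * ((MF * p) * (MG * q) ^ 2)) := by
                rw [hm, hk]; ring
            _ ≤ K * (H ^ (n * 3) * ((MF * p) ^ 2 * (MG * q)) +
                  H ^ (n * 3) * ((MF * p) * (MG * q) ^ 2)) := by gcongr
            _ = K * ((MF * p * H ^ n) ^ 2 * (MG * q * H ^ n) +
                  (MF * p * H ^ n) * (MG * q * H ^ n) ^ 2) := by ring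
            _ ≤ K * (u ^ 2 * u + u * u ^ 2) := by gcongr
            _ = _ := by ring
        have h4 : a1 ^ 2 * H ^ 2 ≤ 2 * K * u ^ 3 := le_trans
          (mul_le_mul_of_nonneg_left (pow_le_pow_right₀ hH1 (by omega)) (sq_nonneg _)) h3
        refine ⟨le_trans (mul_le_mul_of_nonneg_left hMFpow (sq_nonneg _)) (h3.trans ?_), ?_⟩
        · rw [hCdef]; nlinarith [sq_nonneg (K * u ^ 2 + u + 1)]
        · rw [← mul_pow] at h4
          have : a1 * H ≤ 2 * K * u ^ 3 + 1 := by nlinarith [sq_nonneg (a1 * H - 1)]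
          rw [hCdef]
          nlinarith [sq_nonneg (K * u ^ 2 + u + 1)]
  have ha1lt : a1 < 1 := by nlinarith [hbound.2]
  have hnorm : a1 = ‖(ξ : ℂ) - z1‖ := by
    rcases min_choice 1 ‖(ξ : ℂ) - z1‖ with h | h
    · rw [ha1, dist1, h] at ha1lt; exact absurd ha1lt (lt_irrefl _)
    · rw [ha1, dist1, h]
  have hz : ((z1.re : ℝ) : ℂ) = z1 := Complex.conj_eq_iff_re.1 hreal
  have hd : |ξ - z1.re| = a1 := by
    rw [hnorm, ← hz, ← Complex.ofReal_sub, Complex.norm_real, Real.norm_eq_abs, Complex.ofReal_re]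
  refine ⟨z1.re, ?_, by rw [hd]; exact hbound.1, by rw [hd]; exact hbound.2, fun a ha => ?_⟩
  swap
  · obtain ⟨z, hz, rfl⟩ := Multiset.mem_map.1 ha
    rw [hd]
    exact hz1min z (Multiset.mem_toFinset.2 hz)
  have h := (mem_roots'.1 hz1).2
  rw [IsRoot, eval_map, ← hz, ← algebraMap_int_eq, ← aeval_def, ← Complex.coe_algebraMap,
    aeval_algebraMap_apply, Complex.coe_algebraMap] at h
  exact_mod_cast h

theorem exists_irreducible_factor {F : ℤ[X]} (hF : F ≠ 0) {α : ℝ} (h : aeval α F = 0) :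
    ∃ f : ℤ[X], Irreducible f ∧ f ∣ F ∧ aeval α f = 0 ∧ 1 ≤ f.natDegree := by
  obtain ⟨s, hs, u, hu⟩ := WfDvdMonoid.exists_factors F hF
  rw [← hu, map_mul, mul_eq_zero, map_multiset_prod, Multiset.prod_eq_zero_iff,
    Multiset.mem_map] at h
  rcases h with ⟨f, hf, h0⟩ | h
  · refine ⟨f, hs f hf, hu ▸ (Multiset.dvd_prod hf).mul_right _, h0, ?_⟩
    by_contra! hd
    rw [eq_C_of_natDegree_eq_zero (by omega : f.natDegree = 0), aeval_C] at h0
    have h1 := (hs f hf).ne_zero
    rw [eq_C_of_natDegree_eq_zero (by omega : f.natDegree = 0)] at h1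
    exact h1 (by rw [(map_eq_zero_iff _ (algebraMap ℤ ℝ).injective_int).1 h0, map_zero])
  · exact absurd h (u.isUnit.map (aeval α)).ne_zero

/-- An irreducible polynomial has no root in common with a smaller one. -/
theorem croots_disjoint {P Q : ℤ[X]} (hPirr : Irreducible P) (hPprim : P.IsPrimitive)
    (hQ0 : Q ≠ 0) (hQH : mahler Q < mahler P) : ∀ z ∈ croots P, z ∉ croots Q := by
  intro z hzP hzQ
  have hirrQ := (IsPrimitive.Int.irreducible_iff_irreducible_map_cast hPprim).1 hPirr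
  rcases dvd_or_isCoprime _ (Q.map (Int.castRingHom ℚ)) hirrQ with h | ⟨a, b, hab⟩
  · obtain ⟨c, hc⟩ : P ∣ Q :=
      (IsPrimitive.Int.dvd_iff_map_cast_dvd_map_cast P Q hPprim).2 h
    rw [hc, mahler_mul] at hQH
    have hc0 : c ≠ 0 := fun e => hQ0 (by rw [hc, e, mul_zero])
    nlinarith [one_le_mahler hc0, one_le_mahler hPprim.ne_zero]
  · have h := congrArg (eval₂ (algebraMap ℚ ℂ) z) hab
    have hz : ∀ g : ℤ[X], z ∈ croots g →
        (g.map (Int.castRingHom ℚ)).eval₂ (algebraMap ℚ ℂ) z = 0 := fun g hg => by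
      rw [eval₂_map, RingHom.ext_int ((algebraMap ℚ ℂ).comp (Int.castRingHom ℚ))
        (Int.castRingHom ℂ), ← eval_map]
      exact (mem_roots'.1 hg).2
    rw [eval₂_add, eval₂_mul, eval₂_mul, hz P hzP, hz Q hzQ, mul_zero, mul_zero, add_zero,
      eval₂_one] at h
    exact zero_ne_one h

/-- Near an irreducible polynomial of small value a real algebraic number is as near as its
roots. -/
theorem exists_real_root_near {ξ : ℝ} {n : ℕ} (hn : 1 ≤ n) (hξ : NotAlgebraic ξ n) {C0 : ℝ}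
    (hC0 : 0 < C0) :
    ∃ C H1 : ℝ, 0 < C ∧ ∀ P : ℤ[X], Irreducible P → P.IsPrimitive → P.natDegree ≤ n →
      H1 ≤ mahler P → |aeval ξ P| * mahler P ^ n ≤ C0 →
      ∃ (α : ℝ) (f : ℤ[X]), Irreducible f ∧ 1 ≤ f.natDegree ∧ f.natDegree ≤ n ∧
        aeval α f = 0 ∧ mahler f ≤ mahler P ∧ |ξ - α| ^ 2 * mahler f ^ (n + 3) ≤ C ∧
        |ξ - α| * mahler P ≤ C ∧ ∀ a ∈ dists ξ P, |ξ - α| ≤ a := by
  obtain ⟨T, hT, hD⟩ := dirichlet_poly ξ hn
  set E := C0 + T * (4 * ((n : ℝ) + 1)) ^ n with hE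
  have hE0 : 0 < E := by positivity
  obtain ⟨C, H0, hH0, hnear⟩ := near_root ξ hn hE0
  obtain ⟨δ, hδ, hlow⟩ := exists_pos_bound hξ 1
  refine ⟨|C| + 1, H0 + 4 * ((n : ℝ) + 1) + 4 * (T + 1) * ((n : ℝ) + 1) / δ + 2, by positivity,
    fun P hPirr hPprim hPdeg hPH hPle => ?_⟩
  set H := mahler P with hH
  have hPn0 := hPprim.ne_zero
  have hTδ : 0 ≤ 4 * (T + 1) * ((n : ℝ) + 1) / δ := by positivity
  have hn0 : (0 : ℝ) ≤ n := n.cast_nonneg
  set N := ⌊H / (2 * ((n : ℝ) + 1))⌋₊ with hN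
  have hN2 : 2 ≤ H / (2 * ((n : ℝ) + 1)) := by
    rw [le_div_iff₀ (by positivity)]
    linarith
  have hN1 : 1 ≤ N := Nat.le_floor (by push_cast; linarith)
  have hNle : (N : ℝ) * (2 * ((n : ℝ) + 1)) ≤ H := by
    rw [← le_div_iff₀ (by positivity)]
    exact Nat.floor_le (by linarith)
  have hNge : H ≤ 4 * ((n : ℝ) + 1) * N := by
    have h := Nat.lt_floor_add_one (H / (2 * ((n : ℝ) + 1)))
    rw [← hN, div_lt_iff₀ (by positivity)] at h
    have : (1 : ℝ) ≤ N := by exact_mod_cast hN1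
    nlinarith
  obtain ⟨Q, hQ0, hQdeg, hQM, hQv⟩ := hD N hN1
  have hQH : mahler Q < H := by nlinarith
  have hH00 : 0 ≤ H := by linarith
  have hQE : |aeval ξ Q| * H ^ n ≤ E := by
    calc |aeval ξ Q| * H ^ n ≤ |aeval ξ Q| * (4 * ((n : ℝ) + 1) * N) ^ n := by gcongr
      _ = |aeval ξ Q| * (N : ℝ) ^ n * (4 * ((n : ℝ) + 1)) ^ n := by rw [mul_pow]; ring
      _ ≤ E := by
          rw [hE]
          nlinarith [mul_le_mul_of_nonneg_right hQv
            (pow_nonneg (by positivity : (0 : ℝ) ≤ 4 * ((n : ℝ) + 1)) n)]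
  have hPd : 1 ≤ P.natDegree := by
    by_contra! hd
    rw [eq_C_of_natDegree_eq_zero (by omega : P.natDegree = 0)] at hPprim hPirr
    exact hPirr.not_isUnit (isUnit_C.2 (hPprim _ dvd_rfl))
  have hQd : 1 ≤ Q.natDegree := by
    by_contra! hd
    rw [eq_C_of_natDegree_eq_zero (by omega : Q.natDegree = 0)] at hQv hQ0
    have hc : (1 : ℝ) ≤ |(Q.coeff 0 : ℝ)| := by
      exact_mod_cast Int.one_le_abs (C_ne_zero.1 hQ0)
    rw [aeval_C, algebraMap_int_eq, eq_intCast] at hQv
    have hNn : (N : ℝ) ≤ (N : ℝ) ^ n := le_self_pow₀ (by exact_mod_cast hN1) (by omega)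
    have hδ1 : δ ≤ 1 := by
      have hm1 : mahler 1 ≤ 1 := by simp [mahler]
      simpa using hlow 1 one_ne_zero (by simp) hm1
    have h1 : (T + 1) / δ ≤ N := by
      refine le_of_mul_le_mul_left (le_trans ?_ hNge)
        (show (0 : ℝ) < 4 * ((n : ℝ) + 1) by positivity)
      rw [show 4 * ((n : ℝ) + 1) * ((T + 1) / δ) = 4 * (T + 1) * ((n : ℝ) + 1) / δ by ring]
      linarith
    have h2 : T + 1 ≤ (T + 1) / δ := le_div_self (by linarith) hδ hδ1
    have h3 := le_mul_of_one_le_left (pow_nonneg (N.cast_nonneg (α := ℝ)) n) hc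
    linarith
  have hno := croots_disjoint hPirr hPprim hQ0 hQH
  have vP := hξ P hPn0 hPdeg
  have vQ := hξ Q hQ0 hQdeg
  have hPE : |aeval ξ P| * H ^ n ≤ E := hPle.trans (le_add_of_nonneg_right (by positivity))
  obtain ⟨F, hFn, hFd, hFM, α, hα, h2, hH', hmin⟩ : ∃ F : ℤ[X], F ≠ 0 ∧ F.natDegree ≤ n ∧
      mahler F ≤ H ∧ ∃ α : ℝ, aeval α F = 0 ∧ |ξ - α| ^ 2 * mahler F ^ (n + 3) ≤ C ∧
        |ξ - α| * H ≤ C ∧ ∀ a ∈ dists ξ P, |ξ - α| ≤ a := by
    obtain ⟨a, A', hA, ha⟩ := exists_min_cons (A := dists ξ P) fun h => by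
      rw [dists, Multiset.map_eq_zero] at h
      simp [← card_croots, h] at hPd
    obtain ⟨b, B', hB, hb⟩ := exists_min_cons (A := dists ξ Q) fun h => by
      rw [dists, Multiset.map_eq_zero] at h
      simp [← card_croots, h] at hQd
    rcases le_total a b with hab | hab
    · refine ⟨P, hPn0, hPdeg, le_rfl, hnear P Q H (by linarith) hPn0 hQ0 hPd hPdeg hQd hQdeg vP vQ
        le_rfl hQH.le hPE hQE hno ⟨a, by simp [hA], fun x hx => ?_⟩⟩
      rw [hB] at hx
      rcases Multiset.mem_cons.1 hx with rfl | h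
      · exact hab
      · exact hab.trans (hb x h)
    · have hba : ∀ x ∈ dists ξ P, b ≤ x := fun x hx => by
        rw [hA] at hx
        rcases Multiset.mem_cons.1 hx with rfl | h
        · exact hab
        · exact hab.trans (ha x h)
      obtain ⟨α, h1, h2, h3, h4⟩ := hnear Q P H (by linarith) hQ0 hPn0 hQd hQdeg hPd hPdeg vQ vP
        hQH.le le_rfl hQE hPE (fun z h1 h2 => hno z h2 h1) ⟨b, by simp [hB], hba⟩
      exact ⟨Q, hQ0, hQdeg, hQH.le, α, h1, h2, h3,
        fun x hx => (h4 b (by simp [hB])).trans (hba x hx)⟩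
  obtain ⟨f, hf, hfF, hfα, hfd⟩ := exists_irreducible_factor hFn hα
  obtain ⟨g, hg⟩ := hfF
  have hg0 : g ≠ 0 := fun e => hFn (by rw [hg, e, mul_zero])
  have hfM : mahler f ≤ mahler F := by
    rw [hg, mahler_mul]
    exact le_mul_of_one_le_right (zero_le_one.trans (one_le_mahler hf.ne_zero)) (one_le_mahler hg0)
  refine ⟨α, f, hf, hfd, (natDegree_le_of_dvd (Dvd.intro g hg.symm) hFn).trans hFd, hfα,
    hfM.trans hFM, ?_, by linarith [le_abs_self C], hmin⟩
  refine le_trans (mul_le_mul_of_nonneg_left (pow_le_pow_left₀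
    (zero_le_one.trans (one_le_mahler hf.ne_zero)) hfM _) (sq_nonneg _)) ?_
  linarith [le_abs_self C]

/-- **Wirsing's theorem.** -/
theorem exists_approx {ξ : ℝ} {n : ℕ} (hn : 1 ≤ n) (hξ : NotAlgebraic ξ n) :
    ∃ C : ℝ, 0 < C ∧ ∀ ε : ℝ, 0 < ε → ∃ (α : ℝ) (f : ℤ[X]), Irreducible f ∧ 1 ≤ f.natDegree ∧
      f.natDegree ≤ n ∧ aeval α f = 0 ∧ |ξ - α| < ε ∧ |ξ - α| ^ 2 * mahler f ^ (n + 3) ≤ C := by
  obtain ⟨C0, hC0, hsmall⟩ := smallOn_irreducible hn hξ
  obtain ⟨C, H1, hC, hroot⟩ := exists_real_root_near hn hξ hC0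
  refine ⟨C, hC, fun ε hε => ?_⟩
  obtain ⟨P, ⟨hPirr, hPprim, hPdeg⟩, hPH, hPle⟩ := hsmall (max H1 0 + C / ε + 1)
  have hCε : 0 < C / ε := div_pos hC hε
  obtain ⟨α, f, h1, h2, h3, h4, -, h6, h7, -⟩ :=
    hroot P hPirr hPprim hPdeg (by linarith [le_max_left H1 0]) hPle
  refine ⟨α, f, h1, h2, h3, h4, ?_, h6⟩
  have hlt : C < mahler P * ε := by
    rw [← div_lt_iff₀ hε]
    linarith [le_max_right H1 0]
  nlinarith [abs_nonneg (ξ - α)]

end FA.WirsingApprox
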