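import Fermat.Agent.WirsingApprox.Roots
import Fermat.Agent.JarnikIdentity.Forms

/-!
# Irreducible polynomials with small values
-/

set_option autoImplicit false

noncomputable section

open Polynomial

namespace FA.WirsingApprox

variable {ξ : ℝ} {n : ℕ}

/-- No nonzero integer polynomial of degree at most `n` vanishes at `ξ`. -/
def NotAlgebraic (ξ : ℝ) (n : ℕ) : Prop :=
  ∀ f : ℤ[X], f ≠ 0 → f.natDegree ≤ n → aeval ξ f ≠ 0

/-- Arbitrarily large polynomials in `S` with `|f ξ| ≪ M(f) ^ (-n)`. -/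
def SmallOn (ξ : ℝ) (n : ℕ) (S : ℤ[X] → Prop) : Prop :=
  ∃ C : ℝ, 0 < C ∧ ∀ H : ℝ, ∃ f : ℤ[X], S f ∧ H ≤ mahler f ∧ |aeval ξ f| * mahler f ^ n ≤ C

theorem dirichlet_poly (ξ : ℝ) {n : ℕ} (hn : 1 ≤ n) :
    ∃ T : ℝ, 0 < T ∧ ∀ N : ℕ, 1 ≤ N → ∃ f : ℤ[X], f ≠ 0 ∧
    f.natDegree ≤ n ∧ mahler f ≤ (n + 1) * N ∧ |aeval ξ f| * (N : ℝ) ^ n ≤ T := by
  classical
  set S := ∑ i ∈ Finset.range (n + 1), |ξ| ^ i with hS
  have hS1 : 1 ≤ S := by
    refine le_trans (by simp) (Finset.single_le_sum (f := fun i => |ξ| ^ i)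
      (fun i _ => pow_nonneg (abs_nonneg _) _) (Finset.mem_range.2 (Nat.succ_pos n)))
  refine ⟨2 * S, by linarith, fun N hN => ?_⟩
  have hN0 : (0 : ℝ) < N := by exact_mod_cast hN
  have hSsum : S = ∑ i : Fin (n + 1), |ξ| ^ (i : ℕ) :=
    (Fin.sum_univ_eq_sum_range (fun i => |ξ| ^ i) (n + 1)).symm
  obtain ⟨v, -, w, -, hne, -, hclose⟩ := JarnikIdentity.exists_close
    (Finset.univ : Finset (Fin (n + 1) → Fin (N + 1))) {()} (fun _ => ())
    (fun _ _ => Finset.mem_singleton_self _)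
    (fun v => ∑ i : Fin (n + 1), ((v i : ℕ) : ℝ) * ξ ^ (i : ℕ)) (lo := -(S * N))
    (W := 2 * S * N) (by positivity)
    (fun v _ => by
      have h : |∑ i : Fin (n + 1), ((v i : ℕ) : ℝ) * ξ ^ (i : ℕ)| ≤ S * N := by
        rw [hSsum, Finset.sum_mul]
        refine (Finset.abs_sum_le_sum_abs _ _).trans (Finset.sum_le_sum fun i _ => ?_)
        rw [abs_mul, abs_pow, Nat.abs_cast, mul_comm]
        exact mul_le_mul_of_nonneg_left (Nat.cast_le.2 (Nat.lt_succ_iff.1 (v i).2))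
          (pow_nonneg (abs_nonneg _) _)
      obtain ⟨h1, h2⟩ := abs_le.1 h
      exact ⟨h1, by linarith⟩)
    (N := N ^ (n + 1)) (Nat.one_le_pow _ _ hN)
    (by
      rw [Finset.card_singleton, one_mul, Finset.card_univ, Fintype.card_fun, Fintype.card_fin,
        Fintype.card_fin]
      calc N ^ (n + 1) + 1 = N * N ^ n + 1 := by rw [pow_succ, mul_comm]
        _ < N * N ^ n + N ^ n + 1 := by
          have := Nat.one_le_pow n N hN
          omega
        _ ≤ (N + 1) * (N + 1) ^ n := by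
          have h1 : N ^ n + 1 ≤ (N + 1) ^ n :=
            Nat.pow_lt_pow_left (Nat.lt_succ_self N) (by omega)
          nlinarith
        _ = (N + 1) ^ (n + 1) := by rw [pow_succ, mul_comm])
  set f : ℤ[X] := ∑ i : Fin (n + 1), C ((v i : ℤ) - w i) * X ^ (i : ℕ) with hf
  have hcoeff : ∀ i : Fin (n + 1), f.coeff i = (v i : ℤ) - w i := fun i => by
    rw [hf, finsetSum_coeff, Finset.sum_eq_single i]
    · rw [coeff_C_mul_X_pow, if_pos rfl]
    · intro j _ hj
      rw [coeff_C_mul_X_pow, if_neg (by omega)]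
    · simp
  have hdeg : f.natDegree ≤ n := natDegree_sum_le_of_forall_le _ _ fun i _ =>
    (natDegree_C_mul_X_pow_le _ _).trans (Nat.lt_succ_iff.1 i.2)
  refine ⟨f, fun h0 => hne (funext fun i => Fin.ext ?_), hdeg, ?_, ?_⟩
  · have h := hcoeff i
    rw [h0, coeff_zero] at h
    omega
  · refine (mahlerMeasure_le_sum_norm_coeff _).trans ?_
    rw [sum_over_range' _ (fun _ => norm_zero) (n + 1)
      (Nat.lt_succ_of_le (natDegree_map_le.trans hdeg))]
    refine (Finset.sum_le_card_nsmul _ _ (N : ℝ) fun i hi => ?_).trans_eq (by simp)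
    rw [Finset.mem_range] at hi
    rw [coeff_map, eq_intCast, Complex.norm_intCast, hcoeff ⟨i, hi⟩]
    have a := (v ⟨i, hi⟩).2
    have b := (w ⟨i, hi⟩).2
    rw [abs_le]
    push_cast
    constructor <;> linarith [show ((v ⟨i, hi⟩ : ℕ) : ℝ) ≤ N from Nat.cast_le.2 (by omega),
      show ((w ⟨i, hi⟩ : ℕ) : ℝ) ≤ N from Nat.cast_le.2 (by omega),
      (v ⟨i, hi⟩ : ℕ).cast_nonneg (α := ℝ), (w ⟨i, hi⟩ : ℕ).cast_nonneg (α := ℝ)]
  · have e : aeval ξ f = (∑ i : Fin (n + 1), ((v i : ℕ) : ℝ) * ξ ^ (i : ℕ)) -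
        ∑ i : Fin (n + 1), ((w i : ℕ) : ℝ) * ξ ^ (i : ℕ) := by
      rw [hf, map_sum, ← Finset.sum_sub_distrib]
      refine Finset.sum_congr rfl fun i _ => ?_
      simp [sub_mul]
    rw [e, ← le_div_iff₀ (pow_pos hN0 n)]
    refine hclose.trans_eq ?_
    push_cast
    field_simp
    ring

theorem exists_pos_bound (hξ : NotAlgebraic ξ n) (B : ℝ) :
    ∃ δ : ℝ, 0 < δ ∧ ∀ f : ℤ[X], f ≠ 0 → f.natDegree ≤ n → mahler f ≤ B → δ ≤ |aeval ξ f| := by
  classical
  set s := ((finite_mahlerMeasure_le n B.toNNReal).toFinset).filter (· ≠ 0) with hs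
  have hmem : ∀ f : ℤ[X], f ≠ 0 → f.natDegree ≤ n → mahler f ≤ B → f ∈ s := fun f h1 h2 h3 =>
    Finset.mem_filter.2 ⟨(Set.Finite.mem_toFinset _).2 ⟨h2, h3.trans (Real.le_coe_toNNReal B)⟩, h1⟩
  rcases s.eq_empty_or_nonempty with h | h
  · exact ⟨1, one_pos, fun f h1 h2 h3 => by simpa [h] using hmem f h1 h2 h3⟩
  · obtain ⟨g, hg, hmin⟩ := s.exists_min_image (fun f => |aeval ξ f|) h
    obtain ⟨hg1, hg2⟩ := Finset.mem_filter.1 hg
    exact ⟨|aeval ξ g|, abs_pos.2 (hξ g hg2 ((Set.Finite.mem_toFinset _).1 hg1).1),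
      fun f h1 h2 h3 => hmin f (hmem f h1 h2 h3)⟩

theorem smallOn_primitive (hn : 1 ≤ n) (hξ : NotAlgebraic ξ n) :
    SmallOn ξ n fun f => f.IsPrimitive ∧ f.natDegree ≤ n := by
  obtain ⟨T, hT, hD⟩ := dirichlet_poly ξ hn
  refine ⟨T * ((n : ℝ) + 1) ^ n, by positivity, fun H => ?_⟩
  obtain ⟨δ, hδ, hmin⟩ := exists_pos_bound hξ H
  obtain ⟨N, hN⟩ := exists_nat_gt (T / δ + 1)
  have hN1 : (1 : ℝ) < N := lt_of_le_of_lt (le_add_of_nonneg_left (by positivity)) hN
  obtain ⟨f, hf, hdeg, hM, hval⟩ := hD N (by exact_mod_cast hN1.le)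
  set g := f.primPart with hgdef
  have hg : g ≠ 0 := f.isPrimitive_primPart.ne_zero
  have hgdeg : g.natDegree ≤ n := (natDegree_primPart f).le.trans hdeg
  have hcont : (1 : ℝ) ≤ |(f.content : ℝ)| := by
    exact_mod_cast Int.one_le_abs (mt Polynomial.content_eq_zero_iff.1 hf)
  have hgM : mahler g ≤ mahler f := by
    conv_rhs => rw [f.eq_C_content_mul_primPart, mahler_mul]
    refine le_mul_of_one_le_left (zero_le_one.trans (one_le_mahler hg)) (one_le_mahler ?_)
    exact C_ne_zero.2 (mt Polynomial.content_eq_zero_iff.1 hf)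
  have hgv : |aeval ξ g| ≤ |aeval ξ f| := by
    conv_rhs => rw [f.eq_C_content_mul_primPart, map_mul, aeval_C, abs_mul]
    refine le_mul_of_one_le_left (abs_nonneg _) ?_
    simpa using hcont
  have hN2 : (N : ℝ) ≤ (N : ℝ) ^ n := le_self_pow₀ hN1.le (by omega)
  refine ⟨g, ⟨f.isPrimitive_primPart, hgdeg⟩, ?_, ?_⟩
  · by_contra! hlt
    have h := hmin g hg hgdeg hlt.le
    have h2 : δ * (N : ℝ) ≤ T :=
      (mul_le_mul (h.trans hgv) hN2 (by positivity) (abs_nonneg _)).trans hval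
    rw [← le_div_iff₀' hδ] at h2
    linarith
  · calc |aeval ξ g| * mahler g ^ n ≤ |aeval ξ f| * (((n : ℝ) + 1) * N) ^ n := by
          refine mul_le_mul hgv (pow_le_pow_left₀ (zero_le_one.trans (one_le_mahler hg))
            (hgM.trans hM) n) (pow_nonneg (zero_le_one.trans (one_le_mahler hg)) _) (abs_nonneg _)
      _ = |aeval ξ f| * (N : ℝ) ^ n * ((n : ℝ) + 1) ^ n := by rw [mul_pow]; ring
      _ ≤ T * ((n : ℝ) + 1) ^ n := mul_le_mul_of_nonneg_right hval (by positivity)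

theorem smallOn_irreducible_aux (hξ : NotAlgebraic ξ n) :
    ∀ d ≤ n, SmallOn ξ n (fun f => f.IsPrimitive ∧ f.natDegree ≤ d) →
      SmallOn ξ n fun f => Irreducible f ∧ f.IsPrimitive ∧ f.natDegree ≤ n := by
  intro d
  induction d using Nat.strong_induction_on with
  | _ d ih =>
    intro hdn hd
    by_contra hcon
    -- below degree `d` the good polynomials are bounded
    have hsub : ∀ C : ℝ, 0 < C → ∃ H : ℝ, 1 ≤ H ∧ ∀ f : ℤ[X], f.IsPrimitive →
        f.natDegree < d → H ≤ mahler f → C < |aeval ξ f| * mahler f ^ n := by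
      intro C hC
      by_contra! hh
      rcases Nat.eq_zero_or_pos d with rfl | hd0
      · obtain ⟨f, -, hlt, -, -⟩ := hh 1 le_rfl
        exact absurd hlt (Nat.not_lt_zero _)
      refine hcon (ih (d - 1) (by omega) (by omega) ⟨C, hC, fun H => ?_⟩)
      obtain ⟨f, hp, hlt, hH, hle⟩ := hh (max H 1) (le_max_right _ _)
      exact ⟨f, ⟨hp, by omega⟩, (le_max_left _ _).trans hH, hle⟩
    have hirr : ∀ C : ℝ, 0 < C → ∃ H : ℝ, 1 ≤ H ∧ ∀ f : ℤ[X], Irreducible f → f.IsPrimitive →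
        f.natDegree ≤ n → H ≤ mahler f → C < |aeval ξ f| * mahler f ^ n := by
      intro C hC
      by_contra! hh
      refine hcon ⟨C, hC, fun H => ?_⟩
      obtain ⟨f, hi, hp, hdeg, hH, hle⟩ := hh (max H 1) (le_max_right _ _)
      exact ⟨f, ⟨hi, hp, hdeg⟩, (le_max_left _ _).trans hH, hle⟩
    obtain ⟨C, hC, hsmall⟩ := hd
    obtain ⟨H1, hH1, hb1⟩ := hsub (max C 1) (lt_max_of_lt_right one_pos)
    obtain ⟨δ, hδ, hmin⟩ := exists_pos_bound hξ H1
    obtain ⟨H2, hH2, hb2⟩ := hsub (C / δ) (div_pos hC hδ)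
    obtain ⟨H3, hH3, hb3⟩ := hirr C hC
    obtain ⟨f, ⟨hprim, hdeg⟩, hH, hle⟩ := hsmall (max (H1 * H2) H3 + 1)
    have hM3 : H3 ≤ mahler f := by linarith [le_max_right (H1 * H2) H3]
    have hM12 : H1 * H2 < mahler f := by linarith [le_max_left (H1 * H2) H3]
    have hnotirr : ¬Irreducible f := fun hi =>
      absurd hle (hb3 f hi hprim (hdeg.trans hdn) hM3).not_ge
    have hnotunit : ¬IsUnit f := fun hu => by
      obtain ⟨r, hr, rfl⟩ := Polynomial.isUnit_iff.1 hu
      have h1 : mahler (Polynomial.C r) = 1 := by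
        rw [mahler, Polynomial.map_C, mahlerMeasure_const]
        rcases Int.isUnit_iff.1 hr with rfl | rfl <;> simp
      nlinarith
    obtain ⟨a, b, rfl, ha, hb⟩ : ∃ a b, f = a * b ∧ ¬IsUnit a ∧ ¬IsUnit b := by
      by_contra! h
      exact hnotirr ⟨hnotunit, fun a b e => (em (IsUnit a)).imp_right fun ha => h a b e ha⟩
    have hpa := isPrimitive_of_dvd hprim (dvd_mul_right a b)
    have hpb := isPrimitive_of_dvd hprim (dvd_mul_left b a)
    have hdega : 1 ≤ a.natDegree := by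
      by_contra! h
      rw [eq_C_of_natDegree_eq_zero (by omega : a.natDegree = 0)] at ha hpa
      exact ha (isUnit_C.2 (hpa _ dvd_rfl))
    have hdegb : 1 ≤ b.natDegree := by
      by_contra! h
      rw [eq_C_of_natDegree_eq_zero (by omega : b.natDegree = 0)] at hb hpb
      exact hb (isUnit_C.2 (hpb _ dvd_rfl))
    rw [natDegree_mul hpa.ne_zero hpb.ne_zero] at hdeg
    rw [mahler_mul] at hM12
    set x := |aeval ξ a| * mahler a ^ n
    set y := |aeval ξ b| * mahler b ^ n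
    have hxy : x * y ≤ C := by
      refine le_of_eq_of_le ?_ hle
      rw [map_mul, abs_mul, mahler_mul, mul_pow]
      ring
    have hMa := one_le_mahler hpa.ne_zero
    have hMb := one_le_mahler hpb.ne_zero
    have small : ∀ {a b : ℤ[X]}, a.IsPrimitive → b.IsPrimitive → a.natDegree ≤ n →
        b.natDegree < d → H2 ≤ mahler b → mahler a ≤ H1 →
        C < |aeval ξ a| * mahler a ^ n * (|aeval ξ b| * mahler b ^ n) :=
      fun {a b} pa pb da db hb' ha' => by
      have h1 := hb2 b pb db hb'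
      have h2 : δ ≤ |aeval ξ a| * mahler a ^ n := (hmin a pa.ne_zero da ha').trans
        (le_mul_of_one_le_right (abs_nonneg _) (one_le_pow₀ (one_le_mahler pa.ne_zero)))
      calc C = δ * (C / δ) := by field_simp
        _ < δ * (|aeval ξ b| * mahler b ^ n) := mul_lt_mul_of_pos_left h1 hδ
        _ ≤ _ := mul_le_mul_of_nonneg_right h2 ((div_pos hC hδ).trans h1).le
    rcases le_or_gt (mahler a) H1 with ha1 | ha1
    · have hb' : H2 ≤ mahler b := by nlinarith
      linarith [small hpa hpb (by omega) (by omega) hb' ha1]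
    rcases le_or_gt (mahler b) H1 with hb1' | hb1'
    · have ha' : H2 ≤ mahler a := by nlinarith
      linarith [small hpb hpa (by omega) (by omega) ha' hb1', mul_comm x y]
    have g1 := hb1 a hpa (by omega) ha1.le
    have g2 := hb1 b hpb (by omega) hb1'.le
    have : C < x * y := by
      calc C ≤ max C 1 * 1 := by rw [mul_one]; exact le_max_left _ _
        _ < x * y := mul_lt_mul g1 ((le_max_right C 1).trans g2.le) one_pos
            ((zero_le_one.trans (le_max_right C 1)).trans g1.le)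
    linarith

/-- **Irreducible polynomials with small values.** -/
theorem smallOn_irreducible (hn : 1 ≤ n) (hξ : NotAlgebraic ξ n) :
    SmallOn ξ n fun f => Irreducible f ∧ f.IsPrimitive ∧ f.natDegree ≤ n :=
  smallOn_irreducible_aux hξ n le_rfl (smallOn_primitive hn hξ)

end FA.WirsingApprox
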