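import Mathlib.NumberTheory.MahlerMeasure
import Mathlib.RingTheory.Polynomial.Resultant.Basic
import Mathlib.RingTheory.Polynomial.GaussLemma
import Mathlib.Tactic

/-!
# Resultants and the distances of the roots to a real number
-/

set_option autoImplicit false

noncomputable section

open Polynomial

namespace FA.WirsingApprox

/-- The product of `max a b` over two multisets. -/
def crossMax (A B : Multiset ℝ) : ℝ := (A.map fun a => (B.map fun b => max a b).prod).prod

theorem prod_map_le_prod_map {ι : Type} (S : Multiset ι) {f g : ι → ℝ} (h0 : ∀ i ∈ S, 0 ≤ f i)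
    (h : ∀ i ∈ S, f i ≤ g i) : (S.map f).prod ≤ (S.map g).prod := by
  induction S using Multiset.induction_on with
  | empty => simp
  | cons a S ih =>
    simp only [Multiset.map_cons, Multiset.prod_cons]
    have ha := Multiset.mem_cons_self a S
    exact mul_le_mul (h a ha)
      (ih (fun i hi => h0 i (Multiset.mem_cons_of_mem hi))
        fun i hi => h i (Multiset.mem_cons_of_mem hi))
      (Multiset.prod_nonneg (by
        simpa using fun i hi => h0 i (Multiset.mem_cons_of_mem hi)))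
      ((h0 a ha).trans (h a ha))

theorem exists_min_cons {A : Multiset ℝ} (hA : A ≠ 0) :
    ∃ a A', A = a ::ₘ A' ∧ ∀ x ∈ A', a ≤ x := by
  classical
  obtain ⟨a, ha, hmin⟩ := A.toFinset.exists_min_image id
    (Multiset.toFinset_nonempty.2 hA)
  rw [Multiset.mem_toFinset] at ha
  exact ⟨a, A.erase a, (Multiset.cons_erase ha).symm, fun x hx =>
    hmin x (Multiset.mem_toFinset.2 (Multiset.mem_of_mem_erase hx))⟩

/-- All the elements are in the unit interval. -/
def InUnit (A : Multiset ℝ) : Prop := ∀ a ∈ A, 0 < a ∧ a ≤ 1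

theorem InUnit.prod_mem {A : Multiset ℝ} (hA : InUnit A) : 0 < A.prod ∧ A.prod ≤ 1 := by
  induction A using Multiset.induction_on with
  | empty => simp
  | cons a A ih =>
    obtain ⟨h0, h1⟩ := ih fun x hx => hA x (Multiset.mem_cons_of_mem hx)
    obtain ⟨a0, a1⟩ := hA a (Multiset.mem_cons_self a A)
    rw [Multiset.prod_cons]
    exact ⟨mul_pos a0 h0, mul_le_one₀ a1 h0.le h1⟩

theorem row_le_one {B : Multiset ℝ} (hB : InUnit B) {a : ℝ} (ha : 0 < a) (ha1 : a ≤ 1) :
    0 ≤ (B.map fun b => max a b).prod ∧ (B.map fun b => max a b).prod ≤ 1 := by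
  have h : InUnit (B.map fun b => max a b) := fun x hx => by
    obtain ⟨b, hb, rfl⟩ := Multiset.mem_map.1 hx
    exact ⟨lt_max_of_lt_left ha, max_le ha1 (hB b hb).2⟩
  exact ⟨h.prod_mem.1.le, h.prod_mem.2⟩

theorem crossMax_mem {A B : Multiset ℝ} (hA : InUnit A) (hB : InUnit B) :
    0 ≤ crossMax A B ∧ crossMax A B ≤ 1 := by
  refine ⟨Multiset.prod_nonneg ?_, ?_⟩
  · simpa using fun a ha => (row_le_one hB (hA a ha).1 (hA a ha).2).1
  · refine (prod_map_le_prod_map A (g := fun _ => 1)
      (fun a ha => (row_le_one hB (hA a ha).1 (hA a ha).2).1)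
      fun a ha => (row_le_one hB (hA a ha).1 (hA a ha).2).2).trans_eq ?_
    simp

theorem map_eq_self {B : Multiset ℝ} {f : ℝ → ℝ} (h : ∀ b ∈ B, f b = b) : B.map f = B :=
  (Multiset.map_congr rfl h).trans B.map_id'

theorem row_eq {B : Multiset ℝ} {a : ℝ} (h : ∀ b ∈ B, a ≤ b) :
    (B.map fun b => max a b).prod = B.prod := by
  rw [map_eq_self fun b hb => max_eq_right (h b hb)]

/-- Two roots of the first are nearer than all those of the second. -/
theorem crossMax_le_sq {a1 a2 : ℝ} {A B : Multiset ℝ} (hA : InUnit A) (hB : InUnit B)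
    (h1 : ∀ b ∈ B, a1 ≤ b) (h2 : ∀ b ∈ B, a2 ≤ b) :
    crossMax (a1 ::ₘ a2 ::ₘ A) B ≤ B.prod ^ 2 := by
  simp only [crossMax, Multiset.map_cons, Multiset.prod_cons, row_eq h1, row_eq h2]
  have h0 := hB.prod_mem.1.le
  calc B.prod * (B.prod * crossMax A B) ≤ B.prod * (B.prod * 1) := by
        gcongr
        exact (crossMax_mem hA hB).2
    _ = B.prod ^ 2 := by ring

/-- The second has one root. -/
theorem crossMax_single {a1 b : ℝ} {A : Multiset ℝ} (hab : a1 ≤ b) (h : ∀ x ∈ A, b ≤ x) :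
    crossMax (a1 ::ₘ A) {b} * a1 = b * (a1 ::ₘ A).prod := by
  simp only [crossMax, Multiset.map_cons, Multiset.prod_cons, Multiset.map_singleton,
    Multiset.prod_singleton, max_eq_right hab]
  rw [map_eq_self fun x hx => max_eq_left (h x hx)]
  ring

/-- The general case. -/
theorem crossMax_general {a1 a2 b1 b2 : ℝ} {A B : Multiset ℝ}
    (hA : InUnit (a1 ::ₘ a2 ::ₘ A)) (hB : InUnit (b1 ::ₘ b2 ::ₘ B)) (hab : a1 ≤ b1)
    (hb : ∀ x ∈ b2 ::ₘ B, b1 ≤ x) (hb2 : ∀ x ∈ B, b2 ≤ x) (ha : b1 ≤ a2)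
    (ha2 : ∀ x ∈ A, a2 ≤ x) :
    crossMax (a1 ::ₘ a2 ::ₘ A) (b1 ::ₘ b2 ::ₘ B) * a1 ^ 2 ≤
      (a1 ::ₘ a2 ::ₘ A).prod * (b1 ::ₘ b2 ::ₘ B).prod *
        ((a1 ::ₘ a2 ::ₘ A).prod + (b1 ::ₘ b2 ::ₘ B).prod) := by
  have a1m := hA a1 (Multiset.mem_cons_self _ _)
  have a2m := hA a2 (by simp)
  have hAu : InUnit A := fun x hx => hA x (by simp [hx])
  have hBu : InUnit B := fun x hx => hB x (by simp [hx])
  have hP := hA.prod_mem
  have hQ := hB.prod_mem
  set P := (a1 ::ₘ a2 ::ₘ A).prod with hPdef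
  set Q := (b1 ::ₘ b2 ::ₘ B).prod with hQdef
  have h1 : ∀ b ∈ b1 ::ₘ b2 ::ₘ B, a1 ≤ b := fun b hb' =>
    (Multiset.mem_cons.1 hb').elim (fun e => e ▸ hab) fun h => hab.trans (hb b h)
  have e : crossMax (a1 ::ₘ a2 ::ₘ A) (b1 ::ₘ b2 ::ₘ B) =
      Q * (max a2 b1 * (max a2 b2 * (B.map fun b => max a2 b).prod) *
        (A.map fun a => max a b1 * (max a b2 * (B.map fun b => max a b).prod)).prod) := by
    simp only [crossMax, Multiset.map_cons, Multiset.prod_cons, ← row_eq h1, hQdef]
  rw [e, max_eq_left ha]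
  have hrow : ∀ a ∈ A, 0 ≤ max a b1 * (max a b2 * (B.map fun b => max a b).prod) ∧
      max a b1 * (max a b2 * (B.map fun b => max a b).prod) ≤ a * max a b2 := fun a ha' => by
    obtain ⟨r0, r1⟩ := row_le_one hBu (hAu a ha').1 (hAu a ha').2
    have h0 := (hAu a ha').1.le
    rw [max_eq_left (ha.trans (ha2 a ha'))]
    have hm : 0 ≤ max a b2 := h0.trans (le_max_left _ _)
    exact ⟨by positivity, mul_le_mul_of_nonneg_left (mul_le_of_le_one_right hm r1) h0⟩
  have hb2m := hB b2 (by simp)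
  have hb1m := hB b1 (by simp)
  rcases le_total a2 b2 with h | h
  · -- `a2` lies between the two roots
    rw [max_eq_right h, map_eq_self fun b hb' => max_eq_right (h.trans (hb2 b hb'))]
    have hA' : (A.map fun a => max a b1 * (max a b2 * (B.map fun b => max a b).prod)).prod ≤
        A.prod := by
      refine (prod_map_le_prod_map A (g := id) (fun a ha' => (hrow a ha').1) fun a ha' =>
        (hrow a ha').2.trans (mul_le_of_le_one_right (hAu a ha').1.le
          (max_le (hAu a ha').2 hb2m.2))).trans_eq (by rw [Multiset.map_id])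
    have hQ' : Q = b1 * (b2 * B.prod) := by rw [hQdef, Multiset.prod_cons, Multiset.prod_cons]
    have hP' : P = a1 * (a2 * A.prod) := by rw [hPdef, Multiset.prod_cons, Multiset.prod_cons]
    have h0 : 0 ≤ b2 * B.prod := mul_nonneg hb2m.1.le hBu.prod_mem.1.le
    calc Q * (a2 * (b2 * B.prod) *
          (A.map fun a => max a b1 * (max a b2 * (B.map fun b => max a b).prod)).prod) * a1 ^ 2
        ≤ Q * (a2 * (b2 * B.prod) * A.prod) * (a1 * b1) := by
          refine mul_le_mul (mul_le_mul_of_nonneg_left (mul_le_mul_of_nonneg_left hA'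
            (mul_nonneg a2m.1.le h0)) hQ.1.le) ?_ (sq_nonneg _)
            (mul_nonneg hQ.1.le (mul_nonneg (mul_nonneg a2m.1.le h0) hAu.prod_mem.1.le))
          rw [sq]
          exact mul_le_mul_of_nonneg_left hab a1m.1.le
      _ = P * Q * Q := by rw [hP', hQ']; ring
      _ ≤ P * Q * (P + Q) :=
          mul_le_mul_of_nonneg_left (le_add_of_nonneg_left hP.1.le) (mul_nonneg hP.1.le hQ.1.le)
  · -- both roots of the second are nearer
    rw [max_eq_left h]
    have hA' : (A.map fun a => max a b1 * (max a b2 * (B.map fun b => max a b).prod)).prod ≤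
        A.prod * A.prod := by
      refine (prod_map_le_prod_map A (g := fun a => a * a) (fun a ha' => (hrow a ha').1)
        fun a ha' => (hrow a ha').2.trans_eq ?_).trans_eq ?_
      · rw [max_eq_left (h.trans (ha2 a ha'))]
      · rw [Multiset.prod_map_mul, Multiset.map_id']
    have hP' : P = a1 * (a2 * A.prod) := by rw [hPdef, Multiset.prod_cons, Multiset.prod_cons]
    obtain ⟨r0, r1⟩ := row_le_one hBu a2m.1 a2m.2
    have hA0 : 0 ≤ (A.map fun a => max a b1 * (max a b2 * (B.map fun b => max a b).prod)).prod :=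
      Multiset.prod_nonneg (by simpa using fun a ha' => (hrow a ha').1)
    calc Q * (a2 * (a2 * (B.map fun b => max a2 b).prod) *
          (A.map fun a => max a b1 * (max a b2 * (B.map fun b => max a b).prod)).prod) * a1 ^ 2
        ≤ Q * (a2 * (a2 * 1) * (A.prod * A.prod)) * a1 ^ 2 := by
          refine mul_le_mul_of_nonneg_right (mul_le_mul_of_nonneg_left ?_ hQ.1.le) (sq_nonneg _)
          exact mul_le_mul (mul_le_mul_of_nonneg_left (mul_le_mul_of_nonneg_left r1 a2m.1.le)
            a2m.1.le) hA' hA0 (by nlinarith [a2m.1])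
      _ = P * Q * P := by rw [hP']; ring
      _ ≤ P * Q * (P + Q) :=
          mul_le_mul_of_nonneg_left (le_add_of_nonneg_right hQ.1.le) (mul_nonneg hP.1.le hQ.1.le)

/-- The Mahler measure of an integer polynomial. -/
def mahler (f : ℤ[X]) : ℝ := (f.map (Int.castRingHom ℂ)).mahlerMeasure

/-- The complex roots. -/
def croots (f : ℤ[X]) : Multiset ℂ := (f.map (Int.castRingHom ℂ)).roots

theorem one_le_mahler {f : ℤ[X]} (hf : f ≠ 0) : 1 ≤ mahler f := one_le_mahlerMeasure_of_ne_zero hf

theorem mahler_mul (f g : ℤ[X]) : mahler (f * g) = mahler f * mahler g := by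
  rw [mahler, mahler, mahler, Polynomial.map_mul, mahlerMeasure_mul]

theorem card_croots (f : ℤ[X]) : (croots f).card = f.natDegree := by
  rw [croots, ← (IsAlgClosed.splits _).natDegree_eq_card_roots,
    natDegree_map_eq_of_injective (Int.castRingHom ℂ).injective_int]

theorem mahler_eq (f : ℤ[X]) :
    mahler f = |(f.leadingCoeff : ℝ)| * ((croots f).map fun a => max 1 ‖a‖).prod := by
  rw [mahler, mahlerMeasure_eq_leadingCoeff_mul_prod_roots, croots,
    leadingCoeff_map_of_injective (Int.castRingHom ℂ).injective_int, eq_intCast,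
    Complex.norm_intCast]

variable (ξ : ℝ)

/-- The distance to `ξ`, cut at `1`. -/
def dist1 (z : ℂ) : ℝ := min 1 ‖(ξ : ℂ) - z‖

/-- The distances of the roots. -/
def dists (f : ℤ[X]) : Multiset ℝ := (croots f).map (dist1 ξ)

theorem dist1_bounds (z : ℂ) :
    max 1 ‖z‖ * dist1 ξ z ≤ (2 + |ξ|) * ‖(ξ : ℂ) - z‖ ∧
      ‖(ξ : ℂ) - z‖ ≤ (2 + |ξ|) * max 1 ‖z‖ * dist1 ξ z := by
  have hz : ‖z‖ ≤ |ξ| + ‖(ξ : ℂ) - z‖ := by
    have h := norm_sub_norm_le z (ξ : ℂ)
    rw [Complex.norm_real, Real.norm_eq_abs, norm_sub_rev] at h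
    linarith
  have hd : ‖(ξ : ℂ) - z‖ ≤ |ξ| + ‖z‖ := by
    refine (norm_sub_le _ _).trans_eq ?_
    rw [Complex.norm_real, Real.norm_eq_abs]
  have h0 := abs_nonneg ξ
  have hm1 : (1 : ℝ) ≤ max 1 ‖z‖ := le_max_left _ _
  have hm2 : ‖z‖ ≤ max 1 ‖z‖ := le_max_right _ _
  rcases le_total 1 ‖(ξ : ℂ) - z‖ with h | h
  · rw [dist1, min_eq_left h]
    constructor
    · rw [mul_one]
      exact max_le (by nlinarith) (by nlinarith)
    · nlinarith
  · rw [dist1, min_eq_right h]
    constructor
    · exact mul_le_mul_of_nonneg_right (max_le (by linarith) (by linarith)) (norm_nonneg _)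
    · exact le_mul_of_one_le_left (norm_nonneg _) (by nlinarith)

/-- A small value gives near roots. -/
theorem mahler_mul_prod_le (f : ℤ[X]) :
    mahler f * (dists ξ f).prod ≤ (2 + |ξ|) ^ f.natDegree * |aeval ξ f| := by
  have h := (IsAlgClosed.splits (f.map (Int.castRingHom ℂ))).eval_eq_prod_roots (ξ : ℂ)
  have h' : |aeval ξ f| = |(f.leadingCoeff : ℝ)| *
      ((croots f).map fun a => ‖(ξ : ℂ) - a‖).prod := by
    have e : ((aeval ξ f : ℝ) : ℂ) = (f.map (Int.castRingHom ℂ)).eval (ξ : ℂ) := by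
      rw [eval_map, ← algebraMap_int_eq, ← aeval_def, ← Complex.coe_algebraMap,
        ← aeval_algebraMap_apply]
    rw [← Real.norm_eq_abs, ← Complex.norm_real, e, h,
      leadingCoeff_map_of_injective (Int.castRingHom ℂ).injective_int, eq_intCast, norm_mul,
      Complex.norm_intCast]
    congr 1
    rw [croots, ← normHom_apply, map_multiset_prod, Multiset.map_map]
    rfl
  rw [h', mahler_eq, dists, mul_assoc, ← Multiset.prod_map_mul, ← card_croots, mul_left_comm]
  refine mul_le_mul_of_nonneg_left ?_ (abs_nonneg _)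
  have hK : (2 + |ξ|) ^ (croots f).card = ((croots f).map fun _ => 2 + |ξ|).prod := by simp
  rw [hK, ← Multiset.prod_map_mul]
  refine prod_map_le_prod_map _ (fun a _ => ?_) fun a _ => (dist1_bounds ξ a).1
  exact mul_nonneg (le_trans zero_le_one (le_max_left _ _)) (le_min zero_le_one (norm_nonneg _))

theorem inUnit_dists {f : ℤ[X]} (hξ : aeval ξ f ≠ 0) : InUnit (dists ξ f) := by
  intro x hx
  obtain ⟨z, hz, rfl⟩ := Multiset.mem_map.1 hx
  refine ⟨lt_min one_pos (norm_pos_iff.2 fun h => hξ ?_), min_le_left _ _⟩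
  rw [sub_eq_zero] at h
  have hr := isRoot_of_mem_roots hz
  rw [IsRoot, ← h, eval_map, ← algebraMap_int_eq, ← aeval_def] at hr
  have e : ((aeval ξ f : ℝ) : ℂ) = 0 := by
    rw [← hr, ← Complex.coe_algebraMap, ← aeval_algebraMap_apply]
  exact_mod_cast e

/-- The resultant is small. -/
theorem one_le_crossMax {f g : ℤ[X]} (hf : f ≠ 0) (hg : g ≠ 0)
    (hno : ∀ z ∈ croots f, z ∉ croots g) :
    1 ≤ (2 * (2 + |ξ|)) ^ (f.natDegree * g.natDegree) * mahler f ^ g.natDegree *
      mahler g ^ f.natDegree * crossMax (dists ξ f) (dists ξ g) := by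
  set F := f.map (Int.castRingHom ℂ)
  set G := g.map (Int.castRingHom ℂ)
  have hinj := (Int.castRingHom ℂ).injective_int
  have hF : F.natDegree = f.natDegree := natDegree_map_eq_of_injective hinj f
  have hG : G.natDegree = g.natDegree := natDegree_map_eq_of_injective hinj g
  have hF0 : F ≠ 0 := (Polynomial.map_ne_zero_iff hinj).2 hf
  have hG0 : G ≠ 0 := (Polynomial.map_ne_zero_iff hinj).2 hg
  have hres := resultant_eq_prod_eval F G G.natDegree le_rfl (IsAlgClosed.splits F)
  rw [hF, hG, resultant_map_map, leadingCoeff_map_of_injective hinj, eq_intCast, eq_intCast] at hres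
  set r := resultant f g f.natDegree g.natDegree with hr
  have hr0 : r ≠ 0 := fun h0 => by
    rw [h0, Int.cast_zero, eq_comm, mul_eq_zero, Multiset.prod_eq_zero_iff,
      Multiset.mem_map] at hres
    rcases hres with h | ⟨z, hz, hz'⟩
    · exact pow_ne_zero _ (Int.cast_ne_zero.2 (leadingCoeff_ne_zero.2 hf)) h
    · exact hno z hz ((mem_roots hG0).2 hz')
  have h1 : (1 : ℝ) ≤ ‖(r : ℂ)‖ := by
    rw [Complex.norm_intCast]
    exact_mod_cast Int.one_le_abs hr0
  rw [hres, norm_mul, norm_pow, Complex.norm_intCast] at h1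
  refine h1.trans ?_
  have hev : ∀ z, ‖G.eval z‖ =
      |(g.leadingCoeff : ℝ)| * ((croots g).map fun b => ‖z - b‖).prod := fun z => by
    rw [(IsAlgClosed.splits G).eval_eq_prod_roots, leadingCoeff_map_of_injective hinj, eq_intCast,
      norm_mul, Complex.norm_intCast]
    congr 1
    rw [croots, ← normHom_apply, map_multiset_prod, Multiset.map_map]
    rfl
  set K := 2 * (2 + |ξ|) with hK
  have hK0 : 0 ≤ K := by positivity
  have hpair : ∀ z b : ℂ, ‖z - b‖ ≤ K * max 1 ‖z‖ * max 1 ‖b‖ * max (dist1 ξ z) (dist1 ξ b) :=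
    fun z b => by
    have hz := (dist1_bounds ξ z).2
    have hb := (dist1_bounds ξ b).2
    have h := norm_sub_le_norm_sub_add_norm_sub z (ξ : ℂ) b
    rw [norm_sub_rev z (ξ : ℂ)] at h
    have m1 : (1 : ℝ) ≤ max 1 ‖z‖ := le_max_left _ _
    have m2 : (1 : ℝ) ≤ max 1 ‖b‖ := le_max_left _ _
    have d0 : 0 ≤ max (dist1 ξ z) (dist1 ξ b) :=
      (le_min zero_le_one (norm_nonneg _)).trans (le_max_left _ _)
    have hX : 0 ≤ (2 + |ξ|) * max 1 ‖z‖ := by positivity
    have hY : 0 ≤ (2 + |ξ|) * max 1 ‖b‖ := by positivity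
    have g1 : (2 + |ξ|) * max 1 ‖z‖ * dist1 ξ z ≤
        (2 + |ξ|) * max 1 ‖z‖ * max 1 ‖b‖ * max (dist1 ξ z) (dist1 ξ b) :=
      mul_le_mul (le_mul_of_one_le_right hX m2) (le_max_left _ _)
        (le_min zero_le_one (norm_nonneg _)) (mul_nonneg hX (by linarith))
    have g2 : (2 + |ξ|) * max 1 ‖b‖ * dist1 ξ b ≤
        (2 + |ξ|) * max 1 ‖z‖ * max 1 ‖b‖ * max (dist1 ξ z) (dist1 ξ b) := by
      rw [mul_right_comm (2 + |ξ|) (max 1 ‖z‖)]
      exact mul_le_mul (le_mul_of_one_le_right hY m1) (le_max_right _ _)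
        (le_min zero_le_one (norm_nonneg _)) (mul_nonneg hY (by linarith))
    rw [hK]
    linarith
  have hrow : ∀ z, ‖G.eval z‖ ≤ K ^ g.natDegree * max 1 ‖z‖ ^ g.natDegree *
      mahler g * ((dists ξ g).map fun b => max (dist1 ξ z) b).prod := fun z => by
    rw [hev, mahler_eq]
    have e : ((croots g).map fun b =>
        K * max 1 ‖z‖ * max 1 ‖b‖ * max (dist1 ξ z) (dist1 ξ b)).prod =
        K ^ g.natDegree * max 1 ‖z‖ ^ g.natDegree *
          ((croots g).map fun b => max 1 ‖b‖).prod *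
          ((dists ξ g).map fun b => max (dist1 ξ z) b).prod := by
      rw [dists, Multiset.map_map, Multiset.prod_map_mul, Multiset.prod_map_mul,
        Multiset.map_const', Multiset.prod_replicate, card_croots, mul_pow]
      rfl
    calc |(g.leadingCoeff : ℝ)| * ((croots g).map fun b => ‖z - b‖).prod
        ≤ |(g.leadingCoeff : ℝ)| * ((croots g).map fun b =>
            K * max 1 ‖z‖ * max 1 ‖b‖ * max (dist1 ξ z) (dist1 ξ b)).prod :=
          mul_le_mul_of_nonneg_left (prod_map_le_prod_map _ (fun b _ => norm_nonneg _)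
            fun b _ => hpair z b) (abs_nonneg _)
      _ = _ := by rw [e]; ring
  have hprod : ‖(F.roots.map fun z => G.eval z).prod‖ ≤
      K ^ (f.natDegree * g.natDegree) * ((croots f).map fun a => max 1 ‖a‖).prod ^ g.natDegree *
        mahler g ^ f.natDegree * crossMax (dists ξ f) (dists ξ g) := by
    rw [← normHom_apply, map_multiset_prod, Multiset.map_map]
    refine (prod_map_le_prod_map _ (fun z _ => norm_nonneg _) fun z _ => hrow z).trans_eq ?_
    rw [Multiset.prod_map_mul, Multiset.prod_map_mul, Multiset.prod_map_mul, Multiset.map_const',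
      Multiset.map_const', Multiset.prod_replicate, Multiset.prod_replicate, Multiset.prod_map_pow,
      ← pow_mul, crossMax, dists, dists, Multiset.map_map, mul_comm g.natDegree]
    rw [show F.roots = croots f from rfl, card_croots]
    rfl
  calc |(f.leadingCoeff : ℝ)| ^ g.natDegree * ‖(F.roots.map fun z => G.eval z).prod‖
      ≤ |(f.leadingCoeff : ℝ)| ^ g.natDegree * _ :=
        mul_le_mul_of_nonneg_left hprod (by positivity)
    _ = _ := by rw [mahler_eq f, mul_pow]; ring

end FA.WirsingApprox
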